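import Fermat.Agent.S58.Loc.Node

/-!
# S58/Loc: existence of the node context for an integral Weierstrass equation with `v(c₄) = 0 < v(Δ)`
-/

set_option autoImplicit false
set_option linter.unusedSectionVars false

universe u

namespace Fermat.Agent.S58.Loc

open WeierstrassCurve WeierstrassCurve.Affine Fermat.Agent.S05 Fermat.Agent.S13

variable {K : Type u} [Field K] [DecidableEq K] [CharZero K]
variable {V : QVal K} {W : Affine K}

/-- integrality of a root of a monic cubic. -/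
lemma GE_of_cubic {z c2 c1 c0 : K} (h2 : V.GE 0 c2) (h1 : V.GE 0 c1) (h0 : V.GE 0 c0)
    (h : z ^ 3 + c2 * z ^ 2 + c1 * z + c0 = 0) : V.GE 0 z := by
  by_contra hz
  obtain ⟨hz0, hw⟩ := QVal.not_GE_iff.mp hz
  have Ez : V.EQ (V.w z) z := QVal.EQ.mk' hz0
  have E3 : V.EQ (3 * V.w z) (z ^ 3) := by simpa using Ez.pow 3
  have G2 : V.GT (3 * V.w z) (c2 * z ^ 2) := (h2.mul Ez.sq.ge').gt (by linarith)
  have G1 : V.GT (3 * V.w z) (c1 * z) := (h1.mul Ez.ge').gt (by linarith)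
  have G0 : V.GT (3 * V.w z) c0 := h0.gt (by linarith)
  have := ((E3.add_gt G2).add_gt G1).add_gt G0
  rw [h] at this
  exact this.1 rfl

lemma TwoTors.four_mul_GE {e1 e2 e3 : K} (tt : TwoTors W e1 e2 e3)
    (b2 : V.GE 0 W.b₂) (b4 : V.GE 0 W.b₄) (b6 : V.GE 0 W.b₆) : V.GE 0 (4 * e1) := by
  have G8 : V.GE 0 (8 : K) := QVal.GE.ofNat 8
  have G16 : V.GE 0 (16 : K) := QVal.GE.ofNat 16
  refine GE_of_cubic (c2 := W.b₂) (c1 := 8 * W.b₄) (c0 := 16 * W.b₆) b2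
    (by simpa using G8.mul b4) (by simpa using G16.mul b6) ?_
  rw [tt.hb2, tt.hb4, tt.hb6]
  ring

/-- the case where `4 (e1 - e2)` is small. -/
lemma node_of_small (a1 : V.GE 0 W.a₁) (a2 : V.GE 0 W.a₂) (a3 : V.GE 0 W.a₃) (a4 : V.GE 0 W.a₄)
    (a6 : V.GE 0 W.a₆) {e1 e2 e3 : K} (tt : TwoTors W e1 e2 e3) (hc4 : V.EQ 0 W.c₄)
    (hΔ0 : W.Δ ≠ 0) (hΔ : V.GT 0 W.Δ) (ha : V.GT 0 (4 * (e1 - e2))) :
    ∃ (t β : K) (δ : ℚ), Base V W e1 t β δ ∧ 2 * t + W.a₁ * e1 + W.a₃ = 0 ∧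
      V.GE δ ((e2 - e1) / 2) ∧ V.GE δ (e2 - e1) ∧ ¬ V.GT 0 (e3 - e1) := by
  obtain ⟨b2, b4, b6, b8⟩ := b_GE a1 a2 a3 a4 a6
  have z1 := TwoTors.four_mul_GE tt b2 b4 b6
  have z3 := TwoTors.four_mul_GE tt.perm231.perm231 b2 b4 b6
  set a := 4 * (e1 - e2) with ha_def
  set b := 4 * (e1 - e3) with hb_def
  have Gb : V.GE 0 b := by
    have : b = 4 * e1 - 4 * e3 := by rw [hb_def]; ring
    rw [this]; exact z1.sub z3
  have hc4' : W.c₄ = a ^ 2 - a * b + b ^ 2 := by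
    rw [WeierstrassCurve.c₄, tt.hb2, tt.hb4, ha_def, hb_def]; ring
  have Eb : V.EQ 0 b := by
    apply QVal.EQ.of_sq
    have : b ^ 2 = W.c₄ - a * (a - b) := by rw [hc4']; ring
    rw [this, mul_zero]
    exact hc4.sub_gt (by simpa using ha.mul_ge (ha.ge.sub Gb))
  have Eab : V.EQ 0 (a - b) := QVal.EQ.gt_sub ha Eb
  have hΔ' : 256 * W.Δ = a ^ 2 * (b ^ 2 * (a - b) ^ 2) := by
    rw [tt.Δ_eq, ha_def, hb_def]; ring
  have ha0 : a ≠ 0 := by
    intro h0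
    rw [h0] at hΔ'
    have : (256 : K) * W.Δ = 0 := by rw [hΔ']; ring
    rcases mul_eq_zero.mp this with h | h
    · norm_num at h
    · exact hΔ0 h
  have Ea : V.EQ (V.w a) a := QVal.EQ.mk' ha0
  have h20 : (2 : K) ≠ 0 := two_ne_zero
  have E2 : V.EQ (V.w 2) (2 : K) := QVal.EQ.mk' h20
  have hω : 0 ≤ V.w (2 : K) := (QVal.GE.ofNat (V := V) 2).le_w h20
  set ω := V.w (2 : K) with hω_def
  have E4 : V.EQ (2 * ω) (4 : K) := by
    have := E2.pow 2
    norm_num at this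
    exact this
  have E8 : V.EQ (3 * ω) (8 : K) := by
    have := E2.pow 3
    norm_num at this
    exact this
  have E16 : V.EQ (4 * ω) (16 : K) := by
    have := E2.pow 4
    norm_num at this
    exact this
  have E256 : V.EQ (8 * ω) (256 : K) := by
    have := E2.pow 8
    norm_num at this
    exact this
  have EΔ : V.EQ (V.w W.Δ) W.Δ := QVal.EQ.mk' hΔ0
  have hwΔ : 0 < V.w W.Δ := hΔ.lt_w hΔ0
  have hwa : 8 * ω + V.w W.Δ = 2 * V.w a := by
    have h1 := E256.mul EΔ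
    have h2 := Ea.sq.mul (Eb.sq.mul Eab.sq)
    rw [hΔ'] at h1
    have := h1.2.symm.trans h2.2
    linarith
  set β := (e1 - e2) * (e1 - e3) with hβ_def
  have hβ' : β = a * b / 16 := by rw [hβ_def, ha_def, hb_def]; ring
  set δ := V.w a - 4 * ω with hδ_def
  have Eβ : V.EQ δ β := by
    rw [hβ']
    exact ((Ea.mul Eb).div E16).congr (by rw [hδ_def]; ring)
  have hδ : 0 < δ := by rw [hδ_def]; linarith
  have Eu : V.EQ 0 (W.b₂ + 12 * e1) := by
    have : W.b₂ + 12 * e1 = a + b := by rw [tt.hb2, ha_def, hb_def]; ring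
    rw [this]; exact QVal.EQ.gt_add ha Eb
  have R1 : 6 * e1 ^ 2 + W.b₂ * e1 + W.b₄ = 2 * β := by
    rw [tt.hb2, tt.hb4, hβ_def]; ring
  have R2 : 2 * e1 ^ 3 = (W.b₄ + 2 * β) * e1 + W.b₆ := by
    rw [tt.hb4, tt.hb6, hβ_def]; ring
  have Gβ : V.GE 0 β := Eβ.ge hδ.le
  have G2 : V.GE 0 (2 : K) := QVal.GE.ofNat 2
  have G3 : V.GE 0 (3 : K) := QVal.GE.ofNat 3
  have he : V.GE 0 e1 := by
    by_contra hc
    obtain ⟨he0, hw⟩ := QVal.not_GE_iff.mp hc
    have Ee : V.EQ (V.w e1) e1 := QVal.EQ.mk' he0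
    have L : V.EQ (ω + 3 * V.w e1) (2 * e1 ^ 3) := by simpa using E2.mul (Ee.pow 3)
    have Rr : V.GE (V.w e1) ((W.b₄ + 2 * β) * e1 + W.b₆) := by
      refine QVal.GE.add ?_ (b6.mono hw.le)
      simpa using (b4.add (by simpa using G2.mul Gβ)).mul Ee.ge'
    rw [← R2] at Rr
    have h1 : V.w e1 ≤ ω + 3 * V.w e1 := by
      have := Rr.le_w L.1
      rwa [L.2] at this
    have G6 : V.GE 0 (6 * e1 ^ 2) := by
      have : (6 : K) * e1 ^ 2 = 3 * (2 * e1 ^ 2) := by ring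
      rw [this]
      have h2 : V.GE (ω + 2 * V.w e1) (2 * e1 ^ 2) := (E2.mul Ee.sq).ge'
      simpa using G3.mul (h2.mono (by linarith))
    have Gbe : V.GE 0 (W.b₂ * e1) := by
      have : W.b₂ * e1 = 2 * β - W.b₄ - 6 * e1 ^ 2 := by linear_combination R1
      rw [this]
      exact ((by simpa using G2.mul Gβ : V.GE 0 (2 * β)).sub b4).sub G6
    have G12 : V.GT 0 (12 * e1) := by
      have : (12 : K) * e1 = 3 * (4 * e1) := by ring
      rw [this]
      have h2 : V.GE (2 * ω + V.w e1) (4 * e1) := (E4.mul Ee).ge'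
      simpa using G3.mul_gt (h2.gt (by linarith))
    have Eb2 : V.EQ 0 W.b₂ := by
      have : W.b₂ = (W.b₂ + 12 * e1) - 12 * e1 := by ring
      rw [this]; exact Eu.sub_gt G12
    exact (Eb2.mul Ee).not_ge (by linarith) Gbe
  refine ⟨-(W.a₁ * e1 + W.a₃) / 2, β, δ, ?_, by ring, ?_, ?_, ?_⟩
  · exact
    { a1 := a1
      a2 := a2
      a3 := a3
      a4 := a4
      a6 := a6
      he := he
      h3 := by ring
      hns := by
        apply (equation_iff_nonsingular_of_Δ_ne_zero hΔ0).mp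
        rw [equation_iff]
        have h2 := tt.hb2
        have h4 := tt.hb4
        have h6 := tt.hb6
        simp only [WeierstrassCurve.b₂, WeierstrassCurve.b₄, WeierstrassCurve.b₆] at h2 h4 h6
        linear_combination (-(e1 ^ 2) / 4) * h2 - (e1 / 2) * h4 - (1 / 4) * h6
      hβ := by
        have h2 := tt.hb2
        have h4 := tt.hb4
        simp only [WeierstrassCurve.b₂, WeierstrassCurve.b₄] at h2 h4
        rw [hβ_def]
        linear_combination (-(e1) / 2) * h2 - (1 / 2) * h4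
      Eβ := Eβ
      hδ := hδ
      Eb2 := Eu
      σw := fun _ _ => rfl
      σm := fun x _ => by simpa using QVal.GT.zero (V := V) 0
      σe := rfl
      σt := rfl
      Φsome := fun x y h => ⟨h, rfl⟩ }
  · have : (e2 - e1) / 2 = -(a / 8) := by rw [ha_def]; ring
    rw [this]
    exact ((Ea.div E8).neg).ge (by rw [hδ_def]; linarith)
  · have : e2 - e1 = -(a / 4) := by rw [ha_def]; ring
    rw [this]
    exact ((Ea.div E4).neg).ge (by rw [hδ_def]; linarith)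
  · have : e3 - e1 = -(b / 4) := by rw [hb_def]; ring
    rw [this]
    exact ((Eb.div E4).neg).not_gt (by linarith)

/-- existence of the node context. -/
theorem exists_node (a1 : V.GE 0 W.a₁) (a2 : V.GE 0 W.a₂) (a3 : V.GE 0 W.a₃) (a4 : V.GE 0 W.a₄)
    (a6 : V.GE 0 W.a₆) {e1 e2 e3 : K} (tt : TwoTors W e1 e2 e3) (hc4 : V.EQ 0 W.c₄)
    (hΔ0 : W.Δ ≠ 0) (hΔ : V.GT 0 W.Δ) :
    ∃ (e e' e'' t β : K) (δ : ℚ), TwoTors W e e' e'' ∧ Base V W e t β δ ∧
      2 * t + W.a₁ * e + W.a₃ = 0 ∧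
      V.GE δ ((e' - e) / 2) ∧ V.GE δ (e' - e) ∧ ¬ V.GT 0 (e'' - e) := by
  obtain ⟨b2, b4, b6, b8⟩ := b_GE a1 a2 a3 a4 a6
  have z1 := TwoTors.four_mul_GE tt b2 b4 b6
  have z2 := TwoTors.four_mul_GE tt.perm231 b2 b4 b6
  have z3 := TwoTors.four_mul_GE tt.perm231.perm231 b2 b4 b6
  have G12 : V.GE 0 (4 * (e1 - e2)) := by
    have : 4 * (e1 - e2) = 4 * e1 - 4 * e2 := by ring
    rw [this]; exact z1.sub z2
  have G13 : V.GE 0 (4 * (e1 - e3)) := by
    have : 4 * (e1 - e3) = 4 * e1 - 4 * e3 := by ring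
    rw [this]; exact z1.sub z3
  have G23 : V.GE 0 (4 * (e2 - e3)) := by
    have : 4 * (e2 - e3) = 4 * e2 - 4 * e3 := by ring
    rw [this]; exact z2.sub z3
  by_cases h12 : V.EQ 0 (4 * (e1 - e2))
  · by_cases h13 : V.EQ 0 (4 * (e1 - e3))
    · by_cases h23 : V.EQ 0 (4 * (e2 - e3))
      · exfalso
        have hΔ' : 256 * W.Δ =
            (4 * (e1 - e2)) ^ 2 * ((4 * (e1 - e3)) ^ 2 * (4 * (e2 - e3)) ^ 2) := by
          rw [tt.Δ_eq]; ring
        have E := h12.sq.mul (h13.sq.mul h23.sq)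
        rw [← hΔ'] at E
        have G256 : V.GE 0 (256 : K) := QVal.GE.ofNat 256
        exact E.not_gt (c' := 0) (by norm_num) (by simpa using G256.mul_gt hΔ)
      · obtain ⟨t, β, δ, h⟩ := node_of_small a1 a2 a3 a4 a6 tt.perm231 hc4 hΔ0 hΔ
          (G23.gt_of_not_EQ h23)
        exact ⟨e2, e3, e1, t, β, δ, tt.perm231, h⟩
    · obtain ⟨t, β, δ, h⟩ := node_of_small a1 a2 a3 a4 a6 tt.perm132 hc4 hΔ0 hΔ
        (G13.gt_of_not_EQ h13)
      exact ⟨e1, e3, e2, t, β, δ, tt.perm132, h⟩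
  · obtain ⟨t, β, δ, h⟩ := node_of_small a1 a2 a3 a4 a6 tt hc4 hΔ0 hΔ (G12.gt_of_not_EQ h12)
    exact ⟨e1, e2, e3, t, β, δ, tt, h⟩

end Fermat.Agent.S58.Loc
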