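import Fermat.Agent.S58.Defs
import Fermat.Agent.S58.EC.RedA
import Fermat.Agent.S58.Loc.Exists
import Fermat.Agent.S13.FreyLocal

/-!
# S58 (E2): inertia acts unipotently on prime-to-`q` torsion at a prime of good or multiplicative reduction
-/

set_option autoImplicit false

namespace Fermat.Agent.S58

open WeierstrassCurve WeierstrassCurve.Affine Fermat.Agent.S05 Fermat.Agent.S13 Polynomial

/-- the three roots of the 2-division polynomial. -/
theorem exists_twoTors {K : Type*} [Field K] [IsAlgClosed K] [CharZero K] (V : Affine K) :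
    ∃ e1 e2 e3 : K, TwoTors V e1 e2 e3 := by
  set c2 := V.b₂ / 4 with hc2
  set c1 := V.b₄ / 2 with hc1
  set c0 := V.b₆ / 4 with hc0
  obtain ⟨e1, he1⟩ := IsAlgClosed.exists_root (C (1 : K) * X ^ 3 + C c2 * X ^ 2 + C c1 * X + C c0)
    (by rw [degree_cubic one_ne_zero]; norm_num)
  obtain ⟨e2, he2⟩ := IsAlgClosed.exists_root
    (C (1 : K) * X ^ 2 + C (c2 + e1) * X + C (c1 + e1 * (c2 + e1)))
    (by rw [degree_quadratic one_ne_zero]; norm_num)
  simp only [IsRoot.def, eval_add, eval_mul, eval_C, eval_pow, eval_X, one_mul] at he1 he2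
  have h2 : V.b₂ = 4 * c2 := by rw [hc2]; ring
  have h4 : V.b₄ = 2 * c1 := by rw [hc1]; ring
  have h6 : V.b₆ = 4 * c0 := by rw [hc0]; ring
  refine ⟨e1, e2, -(c2 + e1) - e2, ?_, ?_, ?_⟩
  · rw [h2]; ring
  · rw [h4]; linear_combination 2 * he2
  · rw [h6]; linear_combination 4 * he1 + (-4 * e1) * he2

/-- the kernel of reduction has no prime-to-`q` torsion. -/
theorem ker_torsion (W : WeierstrassCurve ℤ) (A : ValuationSubring Qb) {q : ℕ} (hq : q.Prime)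
    (hA : A.LiesOverPrime q) {m : ℕ} (hqm : ¬ q ∣ m) {R : EP W}
    (h : InE1 (qvalA A hq hA) 0 R) (hR : m • R = 0) : R = 0 := by
  by_contra hR0
  rw [← kerRed_iff A hq hA] at h
  obtain ⟨b2, b4, b6, b8⟩ := kernelRed_b_mem (W := W⁄Qb) A
    (by simp [WeierstrassCurve.baseChange]) (by simp [WeierstrassCurve.baseChange])
    (by simp [WeierstrassCurve.baseChange]) (by simp [WeierstrassCurve.baseChange])
    (by simp [WeierstrassCurve.baseChange])
  have hp : A.valuation ((m : ℕ) : Qb) = 1 := by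
    have h1 : ¬ (q : ℤ) ∣ ((m : ℕ) : ℤ) := fun h => hqm (Int.natCast_dvd_natCast.mp h)
    have := v_int_eq_one (val_int_le_one A) hq hA h1
    simpa using this
  exact kernelRed_nsmul_ne_zero A b2 b4 b6 b8 hp R hR0 (h.resolve_left hR0) hR

/-- reduction is invariant under inertia. -/
theorem redA_inertia (W : WeierstrassCurve ℤ) (A : ValuationSubring Qb)
    (hΔ : (W⁄(Kap A)).Δ ≠ 0) (τ : GQ) (hτ : τ ∈ A.inertiaSubgroupIn ℚ) (Q : EP W) :
    redA W A hΔ (τ • Q) = redA W A hΔ Q := by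
  have hfwd : ∀ (ρ : GQ), ρ ∈ A.inertiaSubgroupIn ℚ → ∀ z : Qb, z ∈ A → ρ z ∈ A := by
    intro ρ hρ z hz
    have h1 := sub_mem_nonunits_of_mem_inertia hρ hz
    have h2 : ρ z - z ∈ A := (A.valuation_le_one_iff _).mp (le_of_lt
      ((ValuationSubring.mem_nonunits_iff A).mp h1))
    have : ρ z = (ρ z - z) + z := by ring
    rw [this]
    exact add_mem h2 hz
  have hmem : ∀ z : Qb, τ z ∈ A ↔ z ∈ A := by
    intro z
    refine ⟨fun h => ?_, hfwd τ hτ z⟩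
    have := hfwd τ⁻¹ (inv_mem hτ) _ h
    rwa [show τ⁻¹ (τ z) = z from τ.symm_apply_apply z] at this
  have hres : ∀ (z : Qb) (hz : z ∈ A) (hz' : τ z ∈ A),
      IsLocalRing.residue A ⟨τ z, hz'⟩ = IsLocalRing.residue A ⟨z, hz⟩ := by
    intro z hz hz'
    rw [← sub_eq_zero, ← map_sub, IsLocalRing.residue_eq_zero_iff]
    have h1 := sub_mem_nonunits_of_mem_inertia hτ hz
    rw [ValuationSubring.mem_nonunits_iff_exists_mem_maximalIdeal] at h1
    obtain ⟨h2, h3⟩ := h1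
    exact h3
  rcases Q with _ | ⟨x, y, h⟩
  · rfl
  · obtain ⟨h', e⟩ : ∃ h', τ • (Point.some x y h : EP W) = Point.some (τ x) (τ y) h' := ⟨_, rfl⟩
    rw [e]
    by_cases hx : x ∈ A
    · have hy := (ctxA W A hΔ).y_mem h.1 hx
      obtain ⟨h1, e1⟩ := Red.red_coe (ctxA W A hΔ) h ⟨x, hx⟩ ⟨y, hy⟩ rfl rfl
      obtain ⟨h2, e2⟩ := Red.red_coe (ctxA W A hΔ) h' ⟨τ x, (hmem x).2 hx⟩ ⟨τ y, (hmem y).2 hy⟩
        rfl rfl
      rw [redA, e1, e2]
      exact (Point.some.injEq ..).mpr ⟨hres x hx _, hres y hy _⟩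
    · rw [redA, Red.red_not_mem _ h hx, Red.red_not_mem _ h' (fun hc => hx ((hmem x).1 hc))]

/-- multiplicative reduction: `(τ - 1)² Q` lies in the kernel of reduction. -/
theorem mult_sq (W : WeierstrassCurve ℤ) (hΔ0 : W.Δ ≠ 0) {q : ℕ} (hq : q.Prime)
    (hqΔ : (q : ℤ) ∣ W.Δ) (hc4 : ¬ (q : ℤ) ∣ W.c₄)
    (A : ValuationSubring Qb) (hA : A.LiesOverPrime q) (τ : GQ) (hτ : τ ∈ A.inertiaSubgroupIn ℚ)
    (Q : EP W) : InE1 (qvalA A hq hA) 0 (τ • (τ • Q - Q) - (τ • Q - Q)) := by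
  set V := qvalA A hq hA with hV
  have ea₁ : (W⁄Qb).a₁ = ((W.a₁ : ℤ) : Qb) := by simp [WeierstrassCurve.baseChange]
  have ea₂ : (W⁄Qb).a₂ = ((W.a₂ : ℤ) : Qb) := by simp [WeierstrassCurve.baseChange]
  have ea₃ : (W⁄Qb).a₃ = ((W.a₃ : ℤ) : Qb) := by simp [WeierstrassCurve.baseChange]
  have ea₄ : (W⁄Qb).a₄ = ((W.a₄ : ℤ) : Qb) := by simp [WeierstrassCurve.baseChange]
  have ea₆ : (W⁄Qb).a₆ = ((W.a₆ : ℤ) : Qb) := by simp [WeierstrassCurve.baseChange]
  have eb₂ : (W⁄Qb).b₂ = ((W.b₂ : ℤ) : Qb) := by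
    rw [show (W⁄Qb).b₂ = algebraMap ℤ Qb W.b₂ from WeierstrassCurve.map_b₂ W _, eq_intCast]
  have eb₄ : (W⁄Qb).b₄ = ((W.b₄ : ℤ) : Qb) := by
    rw [show (W⁄Qb).b₄ = algebraMap ℤ Qb W.b₄ from WeierstrassCurve.map_b₄ W _, eq_intCast]
  have eb₆ : (W⁄Qb).b₆ = ((W.b₆ : ℤ) : Qb) := by
    rw [show (W⁄Qb).b₆ = algebraMap ℤ Qb W.b₆ from WeierstrassCurve.map_b₆ W _, eq_intCast]
  have ec₄ : (W⁄Qb).c₄ = ((W.c₄ : ℤ) : Qb) := by
    rw [show (W⁄Qb).c₄ = algebraMap ℤ Qb W.c₄ from WeierstrassCurve.map_c₄ W _, eq_intCast]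
  have eΔ : (W⁄Qb).Δ = ((W.Δ : ℤ) : Qb) := by
    rw [show (W⁄Qb).Δ = algebraMap ℤ Qb W.Δ from WeierstrassCurve.map_Δ W _, eq_intCast]
  have a1 : V.GE 0 (W⁄Qb).a₁ := by rw [ea₁]; exact QVal.GE.intCast _
  have a2 : V.GE 0 (W⁄Qb).a₂ := by rw [ea₂]; exact QVal.GE.intCast _
  have a3 : V.GE 0 (W⁄Qb).a₃ := by rw [ea₃]; exact QVal.GE.intCast _
  have a4 : V.GE 0 (W⁄Qb).a₄ := by rw [ea₄]; exact QVal.GE.intCast _
  have a6 : V.GE 0 (W⁄Qb).a₆ := by rw [ea₆]; exact QVal.GE.intCast _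
  have hΔ0' : (W⁄Qb).Δ ≠ 0 := by rw [eΔ]; exact_mod_cast hΔ0
  have hΔ' : V.GT 0 (W⁄Qb).Δ := by
    rw [eΔ]
    exact Or.inr (qvalA_pos_int A hq hA hΔ0 hqΔ)
  have hc4' : V.EQ 0 (W⁄Qb).c₄ := by rw [ec₄]; exact qvalA_EQ_int A hq hA hc4
  obtain ⟨e1, e2, e3, tt0⟩ := exists_twoTors (W⁄Qb)
  obtain ⟨e, e', e'', t, β, δ, tt, base, h3, hhalf, hfull, hthird⟩ :=
    Loc.exists_node a1 a2 a3 a4 a6 tt0 hc4' hΔ0' hΔ'
  have σm : ∀ x : Qb, V.GE 0 x → V.GT 0 (τ x - x) := fun x hx => qvalA_GT_inertia hq hA hτ hx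
  -- `τ e` is a root of the 2-division polynomial
  have hroot : (τ e - e) * ((τ e - e') * (τ e - e'')) = 0 := by
    have h0 : 4 * e ^ 3 + (W⁄Qb).b₂ * e ^ 2 + 2 * (W⁄Qb).b₄ * e + (W⁄Qb).b₆ = 0 := by
      rw [tt.hb2, tt.hb4, tt.hb6]; ring
    have h1 := congrArg τ h0
    rw [eb₂, eb₄, eb₆] at h1
    simp only [map_add, map_mul, map_pow, map_intCast, map_ofNat, map_zero] at h1
    rw [← eb₂, ← eb₄, ← eb₆, tt.hb2, tt.hb4, tt.hb6] at h1
    have h4 : (4 : Qb) ≠ 0 := by norm_num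
    apply mul_left_cancel₀ h4
    linear_combination h1
  have hcase : τ e = e ∨ τ e = e' := by
    rcases mul_eq_zero.mp hroot with h | h
    · exact Or.inl (sub_eq_zero.mp h)
    rcases mul_eq_zero.mp h with h | h
    · exact Or.inr (sub_eq_zero.mp h)
    · exfalso
      apply hthird
      rw [← sub_eq_zero.mp h]
      exact σm e base.he
  have ht : τ t - t = -((W⁄Qb).a₁ * ((τ e - e) / 2)) := by
    have h1 := congrArg τ h3
    rw [ea₁, ea₃] at h1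
    simp only [map_add, map_mul, map_intCast, map_ofNat, map_zero] at h1
    rw [← ea₁, ← ea₃] at h1
    linear_combination (1 / 2 : Qb) * h1 - (1 / 2 : Qb) * h3
  have C : Loc.Ctx V (W⁄Qb) e t β δ τ.toAlgHom.toRingHom (Point.map (W' := W) τ.toAlgHom) :=
    { base := base
      σw := fun x hx => qvalA_w_inertia hq hA hτ hx
      σm := σm
      σe := by
        change V.GE δ (τ e - e)
        rcases hcase with h | h
        · rw [h, sub_self]; exact QVal.GE.zero _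
        · rw [h]; exact hfull
      σt := by
        change V.GE δ (τ t - t)
        rw [ht]
        refine QVal.GE.neg ?_
        rcases hcase with h | h
        · rw [h, sub_self, zero_div, mul_zero]; exact QVal.GE.zero _
        · rw [h]; simpa using a1.mul hhalf
      σ2 := by
        intro h
        change τ e = e at h
        change τ t = t
        rw [h, sub_self, zero_div, mul_zero, neg_zero] at ht
        exact sub_eq_zero.mp ht
      Φsome := fun x y h => ⟨_, Point.map_some _ h⟩ }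
  exact (inE1_iff base.he _).mp (C.node_sq Q)

/-- (E2) `(τ - 1)² Q = 0` for `τ` in the inertia group at `q`, `Q ∈ E[m]`, `q ∤ m`. -/
theorem inertia_rel (W : WeierstrassCurve ℤ) (hΔ0 : W.Δ ≠ 0) {q : ℕ} (hq : q.Prime)
    (hss : (q : ℤ) ∣ W.Δ → ¬ (q : ℤ) ∣ W.c₄)
    (A : ValuationSubring Qb) (hA : A.LiesOverPrime q) (τ : GQ) (hτ : τ ∈ A.inertiaSubgroupIn ℚ)
    {m : ℕ} (hqm : ¬ q ∣ m) (Q : EP W) (hQ : m • Q = 0) :
    τ • τ • Q - (2 : ℤ) • τ • Q + (1 : ℤ) • Q = 0 := by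
  have hτm : ∀ P : EP W, m • P = 0 → m • (τ • P) = 0 := by
    intro P hP
    rw [← smul_zero τ, ← hP, smul_comm]
  have e0 : τ • τ • Q - (2 : ℤ) • τ • Q + (1 : ℤ) • Q = τ • (τ • Q - Q) - (τ • Q - Q) := by
    rw [smul_sub, two_zsmul, one_zsmul]
    abel
  by_cases hqΔ : (q : ℤ) ∣ W.Δ
  · rw [e0]
    refine ker_torsion W A hq hA hqm (mult_sq W hΔ0 hq hqΔ (hss hqΔ) A hA τ hτ Q) ?_
    have h1 : m • (τ • Q - Q) = 0 := by rw [nsmul_sub, hτm _ hQ, hQ, sub_zero]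
    rw [nsmul_sub, hτm _ h1, h1, sub_zero]
  · have hΔ' := delta_kap_ne_zero W hq hqΔ A hA
    have hchar := Fermat.Agent.S29.FDFixed.charP_residue A hq hA
    have hmk : (m : Kap A) ≠ 0 := by
      rw [Ne, CharP.cast_eq_zero_iff (Kap A) q]
      exact hqm
    have h1 : τ • Q - Q = 0 :=
      Red.eq_zero_of_red_eq_zero (ctxA W A hΔ') hmk _
        (by rw [nsmul_sub, hτm _ hQ, hQ, sub_zero])
        (by
          have := redA_inertia W A hΔ' τ hτ Q
          rw [redA] at this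
          rw [map_sub, this, sub_self])
    rw [e0, h1, sub_zero]
    rfl

end Fermat.Agent.S58
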