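import Fermat.Agent.S13.Local

/-!
# S58/Loc: local analysis at a node, the auxiliary 2-torsion point being only "almost fixed"

Generalisation of `S13.NodeCtx`: `(e, t)` is a 2-torsion point reducing to the node, and the automorphism `σ` (acting
trivially on the residue field) moves it by at most `δ = v(β)`.  Conclusion: `(Φ - 1)² Q` lies in the kernel of reduction.
-/

set_option autoImplicit false
set_option linter.unusedSectionVars false

universe u

namespace Fermat.Agent.S58.Loc

open WeierstrassCurve WeierstrassCurve.Affine Fermat.Agent.S05 Fermat.Agent.S13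

variable {K : Type u} [Field K] [DecidableEq K] [CharZero K]
variable {V : QVal K} {W : Affine K}

/-- the static part of the context (no automorphism). -/
abbrev Base (V : QVal K) (W : Affine K) (e t β : K) (δ : ℚ) : Prop :=
  NodeCtx V W e t β δ (RingHom.id K) (AddMonoidHom.id W.Point)

structure Ctx (V : QVal K) (W : Affine K) (e t β : K) (δ : ℚ) (σ : K →+* K)
    (Φ : W.Point →+ W.Point) : Prop where
  base : Base V W e t β δ
  σw : ∀ x : K, x ≠ 0 → V.w (σ x) = V.w x
  σm : ∀ x : K, V.GE 0 x → V.GT 0 (σ x - x)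
  σe : V.GE δ (σ e - e)
  σt : V.GE δ (σ t - t)
  σ2 : σ e = e → σ t = t
  Φsome : ∀ (x y : K) (h : W.Nonsingular x y), ∃ h', Φ (.some x y h) = .some (σ x) (σ y) h'

namespace Ctx

variable {e t β : K} {δ : ℚ} {σ : K →+* K} {Φ : W.Point →+ W.Point}
variable (C : Ctx V W e t β δ σ Φ)
include C

lemma σGE {x : K} {c : ℚ} (hx : V.GE c x) : V.GE c (σ x) := by
  rcases hx with rfl | hx
  · left; exact map_zero σ
  · by_cases h0 : x = 0
    · left; rw [h0]; exact map_zero σ
    · right; rw [C.σw x h0]; exact hx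

lemma InE1_Φ {R : W.Point} (hR : InE1 V e R) : InE1 V e (Φ R) := by
  rw [inE1_iff C.base.he] at hR ⊢
  rcases R with _ | ⟨x, y, h⟩
  · left; exact map_zero Φ
  · obtain ⟨h', hΦ⟩ := C.Φsome x y h
    have hR' := hR.resolve_left (Point.some_ne_zero h)
    rw [xi_some, sub_zero] at hR'
    obtain ⟨h0, hw⟩ := QVal.not_GE_iff.mp hR'
    right
    rw [hΦ, xi_some, sub_zero]
    exact QVal.not_GE_iff.mpr ⟨(map_ne_zero σ).mpr h0, by rw [C.σw _ h0]; exact hw⟩

/-- points of the identity component are moved by an element of the kernel of reduction. -/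
lemma sub_InE1_of_not_GT {R : W.Point} (hR : R = 0 ∨ ¬ V.GT 0 (xi e R)) :
    InE1 V e (Φ R - R) := by
  rcases R with _ | ⟨x, y, hxy⟩
  · left
    have : Φ Point.zero = 0 := map_zero Φ
    rw [this]; rfl
  have hR := hR.resolve_left (Point.some_ne_zero hxy)
  rw [xi_some] at hR
  obtain ⟨h0, hw⟩ := QVal.not_GT_iff.mp hR
  rcases lt_or_eq_of_le hw with hw | hw
  · have h1 : InE1 V e (Point.some x y hxy) :=
      Or.inr (by rw [xi_some]; exact QVal.not_GE_iff.mpr ⟨h0, hw⟩)
    exact C.base.InE1_sub (C.InE1_Φ h1) h1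
  · have EX : V.EQ 0 (x - e) := ⟨h0, hw⟩
    have hx : V.GE 0 x := by simpa using EX.ge'.add C.base.he
    have hy := y_integral C.base.a1 C.base.a2 C.base.a3 C.base.a4 C.base.a6 hxy.1 hx
    obtain ⟨h', hΦ⟩ := C.Φsome x y hxy
    rw [hΦ]
    exact InE1_sub_of_close C.base.a1 C.base.a2 C.base.a3 C.base.he hxy h' hx hy (C.σm x hx)
      (C.σm y hy) (C.base.nonsing_red' hxy.1 EX)

/-- `T = (e, t)` is its own inverse. -/
lemma neg_T : -(Point.some e t C.base.hns) = Point.some e t C.base.hns := by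
  rw [Point.neg_some]
  simp only [Point.some.injEq, true_and, negY]
  linear_combination -C.base.h3

/-- `Φ T - T` lies on the identity component. -/
lemma ΦT_sub : Φ (Point.some e t C.base.hns) - Point.some e t C.base.hns = 0 ∨
    ¬ V.GT 0 (xi e (Φ (Point.some e t C.base.hns) - Point.some e t C.base.hns)) := by
  obtain ⟨h', hΦ⟩ := C.Φsome e t C.base.hns
  by_cases he : σ e = e
  · left
    rw [hΦ, sub_eq_zero]
    simp only [Point.some.injEq]
    exact ⟨he, C.σ2 he⟩
  · right
    have hX : σ e - e ≠ 0 := sub_ne_zero.mpr he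
    obtain ⟨-, hxi⟩ := C.base.xi_add_T h' hX
    rw [hΦ, sub_eq_add_neg, C.neg_T, hxi]
    have EX : V.EQ (V.w (σ e - e)) (σ e - e) := QVal.EQ.mk' hX
    exact (C.base.Eβ.div EX).not_gt (by have := C.σe.le_w hX; linarith)

/-- `(Φ - 1)² Q ∈ E₁` as soon as `Φ Q - Q` lies on the identity component. -/
lemma sq_of_main {Q : W.Point} (h : Φ Q - Q = 0 ∨ ¬ V.GT 0 (xi e (Φ Q - Q))) :
    InE1 V e (Φ (Φ Q - Q) - (Φ Q - Q)) :=
  C.sub_InE1_of_not_GT h

/-- `(Φ - 1)² Q` lies in the kernel of reduction. -/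
theorem node_sq (Q : W.Point) : InE1 V e (Φ (Φ Q - Q) - (Φ Q - Q)) := by
  have weaken : ∀ {D : W.Point}, InE1 V e D → D = 0 ∨ ¬ V.GT 0 (xi e D) := fun hD =>
    hD.imp id fun h1 h2 => h1 h2.ge
  rcases Q with _ | ⟨x, y, h⟩
  · left
    have : Φ Point.zero = 0 := map_zero Φ
    rw [this]
    have h0 : (0 : W.Point) - Point.zero = 0 := sub_self _
    rw [h0, map_zero, sub_self]
  by_cases hX : x - e = 0
  · have hsh := C.base.shift_eq h.1
    rw [hX] at hsh
    have hy : y - t = 0 := by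
      have : (y - t) ^ 2 = 0 := by linear_combination hsh
      exact pow_eq_zero_iff (two_ne_zero) |>.mp this
    have hx' : x = e := sub_eq_zero.mp hX
    have hy' : y = t := sub_eq_zero.mp hy
    subst hx' hy'
    exact C.sq_of_main C.ΦT_sub
  have EX : V.EQ (V.w (x - e)) (x - e) := QVal.EQ.mk' hX
  rcases le_or_gt (V.w (x - e)) 0 with hd | hd
  · exact C.sq_of_main (weaken (C.sub_InE1_of_not_GT (Or.inr (by
      rw [xi_some]; exact QVal.not_GT_iff.mpr ⟨hX, hd⟩))))
  rcases lt_or_ge (V.w (x - e)) δ with hdδ | hdδ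
  · apply C.sq_of_main
    obtain ⟨h', hΦ⟩ := C.Φsome x y h
    rw [hΦ]
    have EX' : V.EQ (V.w (x - e)) (σ (x - e)) := ⟨(map_ne_zero σ).mpr hX, C.σw _ hX⟩
    have e1 : σ x - e = σ (x - e) + (σ e - e) := by rw [map_sub]; ring
    have EX'' : V.EQ (V.w (x - e)) (σ x - e) := by
      rw [e1]; exact EX'.add_gt (C.σe.gt hdδ)
    refine C.base.node_sub h h' hd hdδ EX EX'' ?_
    have Gs := C.base.slope_GE h.1 hd.le hdδ.le EX
    have e2 : (σ y - t) / (σ x - e) - (y - t) / (x - e) =
        (σ ((y - t) / (x - e)) - (y - t) / (x - e)) +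
          ((σ t - t) - σ ((y - t) / (x - e)) * (σ e - e)) / (σ x - e) := by
      have h1 : σ x - e ≠ 0 := EX''.1
      have h2 : σ (x - e) ≠ 0 := EX'.1
      rw [map_sub] at h2
      rw [map_div₀, map_sub, map_sub]
      field_simp
      ring
    rw [e2]
    refine (C.σm _ Gs).add ?_
    have G1 : V.GE δ ((σ t - t) - σ ((y - t) / (x - e)) * (σ e - e)) :=
      C.σt.sub (by simpa using (C.σGE Gs).mul C.σe)
    exact (G1.div EX'').gt (by linarith)
  · obtain ⟨hne, hxi⟩ := C.base.xi_add_T h hX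
    set T := Point.some e t C.base.hns with hT
    set P := Point.some x y h with hP
    have h1 := C.sub_InE1_of_not_GT (R := P + T) (Or.inr (by
      rw [hxi]; exact (C.base.Eβ.div EX).not_gt (by linarith)))
    have h2 : InE1 V e (Φ (Φ (P + T) - (P + T)) - (Φ (P + T) - (P + T))) :=
      C.base.InE1_sub (C.InE1_Φ h1) h1
    have h3 := C.sq_of_main C.ΦT_sub
    have h4 := C.base.InE1_sub h2 h3
    have e3 : Φ (Φ (P + T) - (P + T)) - (Φ (P + T) - (P + T)) - (Φ (Φ T - T) - (Φ T - T)) =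
        Φ (Φ P - P) - (Φ P - P) := by
      simp only [map_add, map_sub]
      abel
    rwa [e3] at h4

end Ctx

end Fermat.Agent.S58.Loc
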